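import Mathlib
import Fermat.Agent.S16.H188.Lattice

/-!
# S16 / WP LAT : `exists_goodLattice` in the shape of the row skeleton

The row skeleton (helper556) asks for

  `∃ q r t : ℤ, 0 < q ∧ q % 4 = 3 ∧ r ^ 2 + p = q * t ∧ ∃ B, IsGoodLattice p (ibuA p q r t) B`

with `ibuA p q r t = !![2, 1, 0, 0; 1, (1 + q) / 2, 0, r; 0, 0, p * ((1 + q) / 2), p; 0, r, p, 2 * t]`
and `IsGoodLattice` the conjunction of: symmetric, even diagonal, positive definite over `ℝ`,
`A * B = p • 1`, even diagonal of `B`, `det A = p ^ 2`.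

This file proves exactly that, with the structure unfolded into its six fields (in the
order of the fields of the structure) and the matrix written as `ibuMat`, whose body is
literally the body of the skeleton matrix.  It is built on the landed file `H188/Lattice.lean`:
for `q % 4 = 3` the number `m = (1 + q) / 2` is even, positive and `2 * m - 1 = q`, so that
`ibuMat p q r t = H188.latA p m r t` holds by `rfl`.
-/

set_option autoImplicit false

namespace Fermat.Agent.S16.H298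

open Matrix

/-- The Gram matrix of the skeleton (same body as `Skel.ibuA`). -/
def ibuMat (p q r t : ℤ) : Matrix (Fin 4) (Fin 4) ℤ :=
  !![2, 1, 0, 0; 1, (1 + q) / 2, 0, r; 0, 0, p * ((1 + q) / 2), p; 0, r, p, 2 * t]

/-- The partner matrix `B = p • A⁻¹`. -/
def ibuInv (q r t : ℤ) : Matrix (Fin 4) (Fin 4) ℤ :=
  Fermat.Agent.S16.H188.latB ((1 + q) / 2) r t

theorem ibuMat_eq_latA (p q r t : ℤ) :
    ibuMat p q r t = Fermat.Agent.S16.H188.latA p ((1 + q) / 2) r t := rfl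

/-- The six properties of a good lattice (fields of `Skel.IsGoodLattice`, in order). -/
def GoodLatticeProps (p : ℕ) (A B : Matrix (Fin 4) (Fin 4) ℤ) : Prop :=
  A.IsSymm ∧ (∀ i, Even (A i i)) ∧ (A.map (Int.cast : ℤ → ℝ)).PosDef ∧
    A * B = (p : ℤ) • (1 : Matrix (Fin 4) (Fin 4) ℤ) ∧ (∀ i, Even (B i i)) ∧
    A.det = (p : ℤ) ^ 2

theorem half_facts {q : ℤ} (hq : 0 < q) (hq4 : q % 4 = 3) :
    0 < (1 + q) / 2 ∧ Even ((1 + q) / 2) ∧ 2 * ((1 + q) / 2) - 1 = q := by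
  refine ⟨by omega, ?_, by omega⟩
  rw [Int.even_iff]
  omega

/-- For given parameters the matrix `ibuMat` is a good lattice with partner `ibuInv`. -/
theorem goodLatticeProps_ibuMat {p : ℕ} (hp : 0 < p) {q r t : ℤ} (hq : 0 < q)
    (hq4 : q % 4 = 3) (hrt : r ^ 2 + (p : ℤ) = q * t) :
    GoodLatticeProps p (ibuMat p q r t) (ibuInv q r t) := by
  obtain ⟨hm, hme, hmq⟩ := half_facts hq hq4
  have h : r ^ 2 + (p : ℤ) = (2 * ((1 + q) / 2) - 1) * t := by rw [hmq]; exact hrt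
  have hp0 : (0 : ℤ) < p := by exact_mod_cast hp
  rw [ibuMat_eq_latA]
  exact ⟨Fermat.Agent.S16.H188.latA_isSymm _ _ _ _,
    Fermat.Agent.S16.H188.latA_diag_even hme,
    Fermat.Agent.S16.H188.latA_posDef hp0 hm h,
    Fermat.Agent.S16.H188.latA_mul_latB h,
    Fermat.Agent.S16.H188.latB_diag_even hme,
    Fermat.Agent.S16.H188.det_latA h⟩

/-- The partner matrix is also a left inverse up to `p`. -/
theorem ibuInv_mul_ibuMat {p : ℕ} {q r t : ℤ} (hq : 0 < q)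
    (hq4 : q % 4 = 3) (hrt : r ^ 2 + (p : ℤ) = q * t) :
    ibuInv q r t * ibuMat p q r t = (p : ℤ) • (1 : Matrix (Fin 4) (Fin 4) ℤ) := by
  obtain ⟨-, -, hmq⟩ := half_facts hq hq4
  have h : r ^ 2 + (p : ℤ) = (2 * ((1 + q) / 2) - 1) * t := by rw [hmq]; exact hrt
  exact Fermat.Agent.S16.H188.latB_mul_latA h

theorem ibuInv_isSymm (q r t : ℤ) : (ibuInv q r t).IsSymm :=
  Fermat.Agent.S16.H188.latB_isSymm _ _ _

/-- Existence of the parameters: `q ≡ 3 mod 4` positive (in fact prime), `r`, `t` with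
`r ^ 2 + p = q * t`. -/
theorem exists_params (p : ℕ) [hpf : Fact p.Prime] (hp : p ≠ 2) :
    ∃ q r t : ℤ, 0 < q ∧ q % 4 = 3 ∧ r ^ 2 + (p : ℤ) = q * t := by
  have hpp : p.Prime := hpf.out
  have hodd : p % 2 = 1 := by
    rcases hpp.eq_two_or_odd with h | h
    · exact absurd h hp
    · exact h
  have h4 : p % 4 = 1 ∨ p % 4 = 3 := by omega
  rcases h4 with h1 | h3
  · obtain ⟨q, hq, hq3, hsq⟩ :=
      Fermat.Agent.S16.H188.exists_prime_three_mod_four_neg_isSquare hpp h1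
    obtain ⟨s, hs⟩ := hsq
    obtain ⟨r, rfl⟩ := ZMod.intCast_surjective s
    have hdvd : (q : ℤ) ∣ r ^ 2 + p := by
      rw [← ZMod.intCast_zmod_eq_zero_iff_dvd]
      push_cast
      have : ((p : ℤ) : ZMod q) = -((r : ZMod q) * r) := by
        rw [← hs]; simp
      rw [Int.cast_natCast] at this
      rw [this]; ring
    obtain ⟨t, ht⟩ := hdvd
    refine ⟨(q : ℤ), r, t, ?_, ?_, ht⟩
    · exact_mod_cast hq.pos
    · omega
  · refine ⟨(p : ℤ), 0, 1, ?_, ?_, by ring⟩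
    · exact_mod_cast hpp.pos
    · omega

/-- **WP LAT**, unfolded form: this is `Skel.exists_goodLattice` with `Skel.ibuA` replaced by
`ibuMat` (same body) and `Skel.IsGoodLattice` replaced by the conjunction of its fields. -/
theorem exists_goodLattice_props (p : ℕ) [hpf : Fact p.Prime] (hp : p ≠ 2) :
    ∃ q r t : ℤ, 0 < q ∧ q % 4 = 3 ∧ r ^ 2 + (p : ℤ) = q * t ∧
      ∃ B, GoodLatticeProps p (ibuMat p q r t) B := by
  obtain ⟨q, r, t, hq, hq4, hrt⟩ := exists_params p hp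
  exact ⟨q, r, t, hq, hq4, hrt, ibuInv q r t,
    goodLatticeProps_ibuMat hpf.out.pos hq hq4 hrt⟩

/-- **WP LAT**, fully explicit form (no definitions of this file in the statement). -/
theorem exists_goodLattice_explicit (p : ℕ) [hpf : Fact p.Prime] (hp : p ≠ 2) :
    ∃ q r t : ℤ, 0 < q ∧ q % 4 = 3 ∧ r ^ 2 + (p : ℤ) = q * t ∧
      ∃ B : Matrix (Fin 4) (Fin 4) ℤ,
        (!![2, 1, 0, 0; 1, (1 + q) / 2, 0, r; 0, 0, (p : ℤ) * ((1 + q) / 2), (p : ℤ);
            0, r, (p : ℤ), 2 * t] : Matrix (Fin 4) (Fin 4) ℤ).IsSymm ∧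
        (∀ i, Even ((!![2, 1, 0, 0; 1, (1 + q) / 2, 0, r; 0, 0, (p : ℤ) * ((1 + q) / 2), (p : ℤ);
            0, r, (p : ℤ), 2 * t] : Matrix (Fin 4) (Fin 4) ℤ) i i)) ∧
        ((!![2, 1, 0, 0; 1, (1 + q) / 2, 0, r; 0, 0, (p : ℤ) * ((1 + q) / 2), (p : ℤ);
            0, r, (p : ℤ), 2 * t] : Matrix (Fin 4) (Fin 4) ℤ).map (Int.cast : ℤ → ℝ)).PosDef ∧
        (!![2, 1, 0, 0; 1, (1 + q) / 2, 0, r; 0, 0, (p : ℤ) * ((1 + q) / 2), (p : ℤ);
            0, r, (p : ℤ), 2 * t] : Matrix (Fin 4) (Fin 4) ℤ) * B =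
          (p : ℤ) • (1 : Matrix (Fin 4) (Fin 4) ℤ) ∧
        (∀ i, Even (B i i)) ∧
        (!![2, 1, 0, 0; 1, (1 + q) / 2, 0, r; 0, 0, (p : ℤ) * ((1 + q) / 2), (p : ℤ);
            0, r, (p : ℤ), 2 * t] : Matrix (Fin 4) (Fin 4) ℤ).det = (p : ℤ) ^ 2 :=
  exists_goodLattice_props p hp

end Fermat.Agent.S16.H298
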